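/-
P-ORD (S33), block (G-B), row 1138 ORD-GB-C1 (helper32): VALUE CALCULUS ON ONE COMPONENT.

`CompHyp` twins of the `RvHyp`-dependent lemmas of `Fermat.Agent.H94.FF.Val`
(`hasValue_red`, `hasValue_nonunit`, `IsUnrCoord.value_nonunit`, `isUnr_value_mem_unrInt`),
plus the small API of `constC` and of the inverse / divided difference in `V`.  The generic
`HasVal` calculus of `Fermat.Agent.H94.FF.Val` is reused as is.
-/
import Fermat.Agent.H94.ORD.JacInterfaces
import Fermat.Agent.H94.FF.Val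

set_option autoImplicit false
set_option synthInstance.maxHeartbeats 400000
set_option linter.style.haveILetI false
set_option linter.unusedSectionVars false

noncomputable section

open AlgebraicCurve ModularCurve Fermat.Agent.H18 Fermat.Agent.H27.ESD

namespace Fermat.Agent.H32.ORD

open Fermat.Agent.H10.FF Fermat.Agent.H72.FF Fermat.Agent.H18.ORD Fermat.Agent.H92.ORD
  Fermat.Agent.H94.FF Fermat.Agent.H94.ORD

variable {N p : ℕ} {A : ValuationSubring Qb} {Fk : Type} [Field Fk] [Algebra (kRes A) Fk]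
  {X : Type} {V : Subring (FLb N)} {red : V →+* Fk} {r : Place Qb (FLb N) → X}
  {pt : Place (kRes A) Fk → X} {smooth : Place (kRes A) Fk → Prop}

/-- the constant `a ∈ A` as an element of `V` (from `CompHyp` alone) -/
def compConst (H : CompHyp A (IsLocalRing.residue A) V red r pt smooth) (a : A) : V :=
  ⟨algebraMap Qb (FLb N) (a : Qb), H.const_mem a⟩

@[simp]
theorem coe_compConst (H : CompHyp A (IsLocalRing.residue A) V red r pt smooth) (a : A) :
    ((compConst H a : V) : FLb N) = algebraMap Qb (FLb N) (a : Qb) := rfl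

theorem red_compConst (H : CompHyp A (IsLocalRing.residue A) V red r pt smooth) (a : A) :
    red (compConst H a) = algebraMap (kRes A) Fk (IsLocalRing.residue A a) :=
  H.red_const a _

theorem constC_eq_compConst (hS : CompSetup N p A V red r pt smooth) (a : A) :
    constC hS a = compConst hS.comp a := rfl

@[simp]
theorem coe_constC (hS : CompSetup N p A V red r pt smooth) (a : A) :
    ((constC hS a : V) : FLb N) = algebraMap Qb (FLb N) (a : Qb) := rfl

theorem red_constC (hS : CompSetup N p A V red r pt smooth) (a : A) :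
    red (constC hS a) = algebraMap (kRes A) Fk (IsLocalRing.residue A a) :=
  hS.comp.red_const a _

theorem comp_coe_ne_zero {u : V} (hu : red u ≠ 0) : (u : FLb N) ≠ 0 :=
  nv_coe_ne_zero hu

/-- constants of `V` are integral -/
theorem mem_of_algebraMap_mem_comp (H : CompHyp A (IsLocalRing.residue A) V red r pt smooth)
    {a : Qb} (ha : algebraMap Qb (FLb N) a ∈ V) : a ∈ A := by
  by_contra hna
  have ha0 : a ≠ 0 := by
    rintro rfl
    exact hna A.zero_mem
  have hinv : a⁻¹ ∈ A := (A.mem_or_inv_mem a).resolve_left hna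
  have hnu : ¬ IsUnit (⟨a⁻¹, hinv⟩ : A) := by
    intro hu
    obtain ⟨v, hv⟩ := hu.exists_right_inv
    have h1 : a⁻¹ * (v : Qb) = 1 := congrArg Subtype.val hv
    have hva : (v : Qb) = a := by
      have := congrArg (fun x => a * x) h1
      simp only [← mul_assoc, mul_inv_cancel₀ ha0, one_mul, mul_one] at this
      exact this
    exact hna (hva ▸ v.2)
  have h0 : IsLocalRing.residue A ⟨a⁻¹, hinv⟩ = 0 := (H.hker _).mpr hnu
  have hmul : (⟨algebraMap Qb (FLb N) a, ha⟩ : V) * compConst H ⟨a⁻¹, hinv⟩ = 1 := by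
    apply Subtype.ext
    show algebraMap Qb (FLb N) a * algebraMap Qb (FLb N) a⁻¹ = 1
    rw [← map_mul, mul_inv_cancel₀ ha0, map_one]
  have h2 := congrArg red hmul
  rw [map_mul, red_compConst, h0, map_zero, mul_zero, map_one] at h2
  exact zero_ne_one h2

/-- **Value lemma** (wrapping `CompHyp.value_lemma`): values of elements of `V` without poles on
the disc of a smooth point are integral and reduce to the values of the reduction. -/
theorem hasValue_redC (H : CompHyp A (IsLocalRing.residue A) V red r pt smooth) (y : V)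
    (Q : Place (kRes A) Fk) (hQ : smooth Q)
    (hnp : ∀ P1, r P1 = pt Q → 0 ≤ P1.ord (y : FLb N))
    (P : Place Qb (FLb N)) (hP : r P = pt Q) (c : Qb) (hc : HasValue P (y : FLb N) c) :
    ∃ hcA : c ∈ A, HasVal Q (red y) (IsLocalRing.residue A ⟨c, hcA⟩) := by
  rcases hc with hc | hc
  · have hmem : algebraMap Qb (FLb N) c ∈ V := hc ▸ y.2
    have hcA := mem_of_algebraMap_mem_comp H hmem
    refine ⟨hcA, Or.inl ?_⟩
    have : y = compConst H ⟨c, hcA⟩ := Subtype.ext hc
    rw [this, red_compConst]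
  · by_cases hyc : (y : FLb N) = algebraMap Qb (FLb N) c
    · have hmem : algebraMap Qb (FLb N) c ∈ V := hyc ▸ y.2
      have hcA := mem_of_algebraMap_mem_comp H hmem
      refine ⟨hcA, Or.inl ?_⟩
      have : y = compConst H ⟨c, hcA⟩ := Subtype.ext hyc
      rw [this, red_compConst]
    · obtain ⟨hcA, h⟩ := H.value_lemma y Q hQ hnp P hP c hc hyc
      exact ⟨hcA, h⟩

/-- the value of an element of `V` which reduces to a function vanishing at `Q` is a
nonunit -/
theorem hasValue_nonunitC (H : CompHyp A (IsLocalRing.residue A) V red r pt smooth) (y : V)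
    (Q : Place (kRes A) Fk) (hQ : smooth Q)
    (hnp : ∀ P1, r P1 = pt Q → 0 ≤ P1.ord (y : FLb N))
    (hQ0 : HasVal Q (red y) 0)
    (P : Place Qb (FLb N)) (hP : r P = pt Q) (c : Qb) (hc : HasValue P (y : FLb N) c) :
    c ∈ A.nonunits := by
  obtain ⟨hcA, h⟩ := hasValue_redC H y Q hQ hnp P hP c hc
  have h0 : IsLocalRing.residue A ⟨c, hcA⟩ = 0 := h.unique hQ0
  have hnu : ¬ IsUnit (⟨c, hcA⟩ : A) := (H.hker _).mp h0
  rw [ValuationSubring.mem_nonunits_iff_exists_mem_maximalIdeal]
  exact ⟨hcA, (IsLocalRing.mem_maximalIdeal _).mpr hnu⟩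

theorem IsUnrCoordC.red_ne_zero {Q : Place (kRes A) Fk} {P : Place Qb (FLb N)} {t : V}
    (ht : IsUnrCoordC A N V red r pt Q P t) : red t ≠ 0 := by
  intro h0
  have h1 := ht.simple
  rw [h0, Place.ord_zero] at h1
  exact zero_ne_one h1

/-- the coordinate of a point of the disc is a nonunit -/
theorem IsUnrCoordC.value_nonunit (H : CompHyp A (IsLocalRing.residue A) V red r pt smooth)
    {Q : Place (kRes A) Fk} (hQ : smooth Q) {P : Place Qb (FLb N)} {t : V}
    (ht : IsUnrCoordC A N V red r pt Q P t) (P1 : Place Qb (FLb N)) (hP1 : r P1 = pt Q)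
    (c : Qb) (hc : HasValue P1 (t : FLb N) c) : c ∈ A.nonunits := by
  refine hasValue_nonunitC H t Q hQ ht.nopole ?_ P1 hP1 c hc
  rw [hasVal_zero_iff]
  right
  rw [ht.simple]

/-- the value of an unramified element of `V` at an unramified place of the disc of a smooth
point (no poles on the disc) lies in `R` -/
theorem isUnr_value_mem_unrIntC (H : CompHyp A (IsLocalRing.residue A) V red r pt smooth)
    (y : V) (Q : Place (kRes A) Fk) (hQ : smooth Q) (P : Place Qb (FLb N)) (hPQ : r P = pt Q)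
    (hnp : ∀ P1, r P1 = pt Q → 0 ≤ P1.ord (y : FLb N))
    (hP : IsUnrPlace A N P) (hy : IsUnrFn A N (y : FLb N)) (c : Qb)
    (h : HasValue P (y : FLb N) c) : c ∈ unrInt A := by
  obtain ⟨hcA, -⟩ := hasValue_redC H y Q hQ hnp P hPQ c h
  exact ⟨hcA, isUnr_value_fixed hP hy h⟩

/-! ### inverse and divided difference in `V` -/

/-- the inverse of an element with nonzero reduction, in `V` -/
def compInv (hinv : ∀ u : V, red u ≠ 0 → (u : FLb N)⁻¹ ∈ V) (t : V) (ht : red t ≠ 0) : V :=
  ⟨((t : FLb N))⁻¹, hinv t ht⟩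

theorem mul_compInv (hinv : ∀ u : V, red u ≠ 0 → (u : FLb N)⁻¹ ∈ V) (t : V) (ht : red t ≠ 0) :
    t * compInv hinv t ht = 1 := by
  apply Subtype.ext
  show (t : FLb N) * ((t : FLb N))⁻¹ = 1
  exact mul_inv_cancel₀ (comp_coe_ne_zero ht)

theorem red_compInv (hinv : ∀ u : V, red u ≠ 0 → (u : FLb N)⁻¹ ∈ V) (t : V) (ht : red t ≠ 0) :
    red (compInv hinv t ht) = (red t)⁻¹ := by
  have h := congrArg red (mul_compInv hinv t ht)
  rw [map_mul, map_one] at h
  exact eq_inv_of_mul_eq_one_right h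

/-- the divided difference `(m - c) / t` in `V` -/
def divDiffC (H : CompHyp A (IsLocalRing.residue A) V red r pt smooth)
    (hinv : ∀ u : V, red u ≠ 0 → (u : FLb N)⁻¹ ∈ V) (t : V) (ht : red t ≠ 0) (m : V) (c : A) :
    V :=
  (m - compConst H c) * compInv hinv t ht

theorem coe_divDiffC (H : CompHyp A (IsLocalRing.residue A) V red r pt smooth)
    (hinv : ∀ u : V, red u ≠ 0 → (u : FLb N)⁻¹ ∈ V) (t : V) (ht : red t ≠ 0) (m : V) (c : A) :
    ((divDiffC H hinv t ht m c : V) : FLb N) =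
      ((m : FLb N) - algebraMap Qb (FLb N) (c : Qb)) * ((t : FLb N))⁻¹ := rfl

theorem divDiffC_mul_self (H : CompHyp A (IsLocalRing.residue A) V red r pt smooth)
    (hinv : ∀ u : V, red u ≠ 0 → (u : FLb N)⁻¹ ∈ V) (t : V) (ht : red t ≠ 0) (m : V) (c : A) :
    t * divDiffC H hinv t ht m c = m - compConst H c := by
  apply Subtype.ext
  have ht0 : (t : FLb N) ≠ 0 := comp_coe_ne_zero ht
  show (t : FLb N) * (((m : FLb N) - algebraMap Qb (FLb N) (c : Qb)) * ((t : FLb N))⁻¹) =
    (m : FLb N) - algebraMap Qb (FLb N) (c : Qb)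
  field_simp

theorem isUnrFn_divDiffC (H : CompHyp A (IsLocalRing.residue A) V red r pt smooth)
    (hinv : ∀ u : V, red u ≠ 0 → (u : FLb N)⁻¹ ∈ V) (t : V) (ht : red t ≠ 0) (m : V)
    (c : A) (htU : IsUnrFn A N (t : FLb N)) (hmU : IsUnrFn A N (m : FLb N))
    (hc : (c : Qb) ∈ unrInt A) :
    IsUnrFn A N ((divDiffC H hinv t ht m c : V) : FLb N) := by
  intro σ hσ
  rw [coe_divDiffC, smul_mul', smul_sub, smul_inv'', htU σ hσ, hmU σ hσ,
    SemilinearAut.smul_algebraMap]
  have : SemilinearAut.baseAut (galF N σ) (c : Qb) = (c : Qb) := hc.2 σ hσ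
  rw [this]

theorem divDiffC_nopole (H : CompHyp A (IsLocalRing.residue A) V red r pt smooth)
    (hinv : ∀ u : V, red u ≠ 0 → (u : FLb N)⁻¹ ∈ V)
    {Q : Place (kRes A) Fk} (hQ : smooth Q) {P : Place Qb (FLb N)} {t : V}
    (ht : IsUnrCoordC A N V red r pt Q P t) (m : V) (c : A)
    (hm : ∀ P1, r P1 = pt Q → 0 ≤ P1.ord (m : FLb N))
    (hdeg : ∀ v : Place Qb (FLb N), v.deg = 1)
    (hc : HasValue P (m : FLb N) (c : Qb)) (P1 : Place Qb (FLb N)) (hP1 : r P1 = pt Q) :
    0 ≤ P1.ord ((divDiffC H hinv t (IsUnrCoordC.red_ne_zero ht) m c : V) : FLb N) := by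
  rw [coe_divDiffC]
  by_cases h0 : (m : FLb N) - algebraMap Qb (FLb N) (c : Qb) = 0
  · rw [h0, zero_mul, Place.ord_zero]
  have ht0 : (t : FLb N) ≠ 0 := comp_coe_ne_zero (IsUnrCoordC.red_ne_zero ht)
  rw [P1.ord_mul h0 (inv_ne_zero ht0), P1.ord_inv]
  obtain ⟨h1, h2⟩ := H.ord_eq_of_coord Q hQ P ht.sp t ht.zero ht.simple ht.nopole
  by_cases hPP : P1 = P
  · subst hPP
    rw [h1]
    rcases hc with hc | hc
    · exact absurd (sub_eq_zero.mpr hc) h0
    · omega
  · rw [h2 P1 hP1 hPP]
    obtain ⟨b, hb⟩ := exists_hasVal (hdeg P1) (hm P1 hP1)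
    have := (hb.sub (hasVal_const P1 (c : Qb))).ord_nonneg
    omega

theorem coe_sum_compConst_mul (H : CompHyp A (IsLocalRing.residue A) V red r pt smooth)
    {d : ℕ} (κ : Fin d → A) (m : Fin d → V) :
    (((∑ j, compConst H (κ j) * m j : V)) : FLb N) =
      ∑ j, algebraMap Qb (FLb N) (κ j : Qb) * (m j : FLb N) := by
  rw [AddSubmonoidClass.coe_finsetSum]
  rfl

theorem coe_sum_constC_mul (hS : CompSetup N p A V red r pt smooth)
    {d : ℕ} (κ : Fin d → A) (m : Fin d → V) :
    (((∑ j, constC hS (κ j) * m j : V)) : FLb N) =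
      ∑ j, algebraMap Qb (FLb N) (κ j : Qb) * (m j : FLb N) := by
  rw [AddSubmonoidClass.coe_finsetSum]
  rfl

end Fermat.Agent.H32.ORD
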