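import Mathlib
import Fermat.Agent.H66.ORD.TotIdeal
import Fermat.Agent.H92.ORD.BcSat

/-!
# P-ORD, block B1-ANCHOR, step [L3bar] (helper32)

`𝔪_∞ ∩ 𝔪_0 ∩ B̄(y) = 𝔪_A B̄(y)` at the `ℚ̄`-level, for the charts `y = j` and `y = j⁻¹`
of `X₀(M p)`:

* `l3_model` : over a number field `(K₁, A₀)` : `g₁ ∈ B(y)`, `g₁ ∈ 𝔪_∞`, `g₁ ∈ 𝔪_0`  ⟹
  `g₁ ∈ ϖ B(y)`  (the intersection form of helper7's `TwoComp` + LEMMA T);
* `l3_bar` : the same at the `ℚ̄`-level (descent, as in helper66's `ker_bar`);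
* `nmChartL3` (chart `j`), `nmChartL3_inv` (chart `j⁻¹`) : the exact targets asked for by
  helper92 (consumer: the chart lift `NmChartLiftStatement`).
-/

set_option autoImplicit false
set_option maxSynthPendingDepth 3
set_option linter.unusedSectionVars false
set_option linter.unusedVariables false
set_option linter.style.haveILetI false
set_option synthInstance.maxHeartbeats 400000
set_option maxHeartbeats 1600000

noncomputable section

namespace Fermat.Agent.H32.ORD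

open ModularCurve AlgebraicCurve Polynomial
open Fermat.Agent.H22.KL Fermat.Agent.H7.SS Fermat.Agent.H7.SS2 Fermat.Agent.H93.KL
open Fermat.Agent.H9.E6 Fermat.Agent.H66 Fermat.Agent.H66.SS Fermat.Agent.H84.ORD
open Fermat.Agent.H72.FF Fermat.Agent.H82.SS Fermat.Agent.H94.FF
open Fermat.Agent.H66.ORD Fermat.Agent.H92.ORD
open Fermat.Agent.H67.KLConn (PiDvd)

section Model

variable (M p : ℕ) [NeZero M] [NeZero p]
  (K₁ : Type) [Field K₁] [Algebra ℚ K₁] [FiniteDimensional ℚ K₁]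
  (A₀ : Type) [CommRing A₀] [IsDomain A₀] [IsDiscreteValuationRing A₀]
  [Algebra A₀ K₁] [IsFractionRing A₀ K₁]
  [Algebra A₀ (ModelField K₁ (M * p))] [IsScalarTower A₀ K₁ (ModelField K₁ (M * p))]

/-- **`𝔪_∞ ∩ 𝔪_0 ∩ B(y) = ϖ B(y)`** over a number field, in both charts. -/
theorem l3_model (hp : p.Prime) (hpM : ¬ p ∣ M)
    (hpA : ¬ IsUnit ((p : ℕ) : A₀)) (ϖ : A₀) (hϖ : Irreducible ϖ)
    (x : ModelField K₁ (M * p)) (hx : (x : LaurentSeries K₁) = coeffEmb K₁ jq)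
    (W : ModelField K₁ (M * p) ≃ₐ[K₁] ModelField K₁ (M * p)) (hW : IsAtkinLehnerModel K₁ M p W)
    (y : ModelField K₁ (M * p)) (hy : y = x ∨ y = x⁻¹)
    (g₁ : ModelField K₁ (M * p))
    (hg : g₁ ∈ chartClosure A₀ (ModelField K₁ (M * p)) y)
    (hgM : g₁ ∈ (vInf K₁ A₀ (M * p)).nonunits)
    (hgM0 : g₁ ∈ (vZero K₁ A₀ (M * p) W).nonunits) :
    ∃ r ∈ chartClosure A₀ (ModelField K₁ (M * p)) y,
      g₁ = algebraMap A₀ (ModelField K₁ (M * p)) ϖ * r := by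
  haveI : NeZero (M * p) := ⟨Nat.mul_ne_zero (NeZero.ne M) (NeZero.ne p)⟩
  have hinj : Function.Injective (algebraMap A₀ (ModelField K₁ (M * p))) := by
    rw [IsScalarTower.algebraMap_eq A₀ K₁ (ModelField K₁ (M * p))]
    exact (algebraMap K₁ _).injective.comp (IsFractionRing.injective A₀ K₁)
  have htr : Transcendental A₀ x :=
    Fermat.Agent.H58.modelTranscendental_jq (M * p) K₁ A₀ x hx
  have htry : Transcendental A₀ y := by
    rcases hy with rfl | rfl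
    · exact htr
    · exact Fermat.Agent.H89.klg_transcendental_inv htr
  obtain ⟨-, -, hCinv⟩ := Fermat.Agent.H89.gaussClosureStatement A₀ (ModelField K₁ (M * p))
    hinj ϖ hϖ x htr
  have hCy : gaussClosure A₀ (ModelField K₁ (M * p)) ϖ y =
      gaussClosure A₀ (ModelField K₁ (M * p)) ϖ x := by
    rcases hy with rfl | rfl
    · rfl
    · exact hCinv
  have hpi := (piDvdSet_iff_vInf_vZero M p K₁ A₀ hpA ϖ hϖ x hx W hW hp hpM g₁).2 ⟨hgM, hgM0⟩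
  rw [← hCy] at hpi
  obtain ⟨r, hr, hfr⟩ := Fermat.Agent.H34.lemmaT A₀ (ModelField K₁ (M * p)) hinj ϖ hϖ y htry
    g₁ hg hpi
  refine ⟨r, hr, ?_⟩
  rw [hfr, pow_one, Algebra.smul_def]

end Model

/-- **`𝔪_∞ ∩ 𝔪_0 ∩ B̄(y) = 𝔪_A B̄(y)`** at the `ℚ̄`-level, `y = j` or `j⁻¹`. -/
theorem l3_bar (M p : ℕ) [NeZero M] [NeZero p] (hp : p.Prime) (hpM : ¬ p ∣ M)
    (hcop : Nat.Coprime M p) (A : ValuationSubring Qb) (hA : A.LiesOverPrime p)
    (w : ↥(modularFunctionFieldFull (M * p)))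
    (hw : haveI : NeZero (M * p) := ⟨Nat.mul_ne_zero (NeZero.ne M) (NeZero.ne p)⟩
      w = nmJq (M * p) ∨ w = (nmJq (M * p))⁻¹)
    (g : FLb (M * p))
    (hg : g ∈ nmChart (M * p) A
      (Fermat.Agent.H62.SS.ratBar (modularFunctionFieldFull (M * p)) w))
    (hgO : g ∈ gaussOBar (M * p) A) (hgro : gaussRedBar (M * p) A ⟨g, hgO⟩ = 0)
    (hgV : g ∈ nmV0 M p hcop A) (hgr : nmRed0 M p hcop A ⟨g, hgV⟩ = 0) :
    ∃ c ∈ A.nonunits, ∃ t ∈ nmChart (M * p) A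
        (Fermat.Agent.H62.SS.ratBar (modularFunctionFieldFull (M * p)) w),
      g = algebraMap Qb (FLb (M * p)) c * t := by
  classical
  haveI : NeZero (M * p) := ⟨Nat.mul_ne_zero (NeZero.ne M) (NeZero.ne p)⟩
  obtain ⟨Kg, hKg, hdg⟩ := exists_descent_nmChart (N := M * p) (A := A) w g hg
  haveI := hKg
  set K : IntermediateField ℚ Qb := Kg with hK
  haveI : FiniteDimensional ℚ ↥K := by rw [hK]; infer_instance
  haveI : NumberField ↥K := ordNumberField_of_fd ↥K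
  set ι : ↥K →+* Qb := algebraMap ↥K Qb with hι
  have hpL : ((p : ℕ) : Qb) ≠ 0 := Nat.cast_ne_zero.mpr hp.ne_zero
  haveI hDVR : IsDiscreteValuationRing ↥(A.comap ι) :=
    Fermat.Agent.H93.KL.comap_isDiscreteValuationRing ι A hpL hA
  obtain ⟨ϖ, hϖ⟩ := IsDiscreteValuationRing.exists_irreducible ↥(A.comap ι)
  letI := modelAlgebra ↥K (A.comap ι) (M * p)
  haveI := modelAlgebra_isScalarTower ↥K (A.comap ι) (M * p)
  have hnu : ¬ IsUnit ((p : ℕ) : ↥(A.comap ι)) := by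
    have h1 := Fermat.Agent.H93.KL.natCast_mem_nonunits_comap ι A hA
    rw [ValuationSubring.mem_nonunits_iff_exists_mem_maximalIdeal] at h1
    obtain ⟨hmem, hmax⟩ := h1
    rw [IsLocalRing.mem_maximalIdeal, mem_nonunits_iff] at hmax
    intro hu
    apply hmax
    have e : (⟨(p : ↥K), hmem⟩ : ↥(A.comap ι)) = ((p : ℕ) : ↥(A.comap ι)) :=
      Subtype.ext (by simp)
    rw [e]
    exact hu
  obtain ⟨W₁, hW₁, hWbc⟩ := exists_modelW M p hcop ι
  obtain ⟨g₁, hg₁, hg₁B⟩ := hdg K le_rfl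
  -- the coordinate
  set x : ModelField ↥K (M * p) :=
    Fermat.Agent.H62.SS.ratK (K₁ := ↥K) (modularFunctionFieldFull (M * p)) (nmJq (M * p))
    with hxdef
  have hx : (x : LaurentSeries ↥K) = coeffEmb ↥K jq := rfl
  have hy : Fermat.Agent.H62.SS.ratK (K₁ := ↥K) (modularFunctionFieldFull (M * p)) w = x ∨
      Fermat.Agent.H62.SS.ratK (K₁ := ↥K) (modularFunctionFieldFull (M * p)) w = x⁻¹ := by
    rcases hw with rfl | rfl
    · exact Or.inl rfl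
    · exact Or.inr (map_inv₀ _ _)
  -- the maximal ideals
  have hgO' : klBc ι (modularFunctionFieldFull (M * p)) g₁ ∈ gaussOBar (M * p) A := by
    rw [hg₁]; exact hgO
  have hgM : g₁ ∈ (vInf ↥K ↥(A.comap ι) (M * p)).nonunits := by
    rw [← bc_gaussRedBar_eq_zero_iff ι A (M * p) g₁ hgO']
    have e : (⟨klBc ι (modularFunctionFieldFull (M * p)) g₁, hgO'⟩ :
        ↥(gaussOBar (M * p) A)) = ⟨g, hgO⟩ := Subtype.ext hg₁
    rw [e]
    exact hgro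
  have hgV' : klBc ι (modularFunctionFieldFull (M * p)) g₁ ∈ nmV0 M p hcop A := by
    rw [hg₁]; exact hgV
  have hgM0 : g₁ ∈ (vZero ↥K ↥(A.comap ι) (M * p) W₁).nonunits := by
    rw [← bc_nmRed0_eq_zero_iff M p hcop ι A W₁ hWbc g₁ hgV']
    have e : (⟨klBc ι (modularFunctionFieldFull (M * p)) g₁, hgV'⟩ :
        ↥(nmV0 M p hcop A)) = ⟨g, hgV⟩ := Subtype.ext hg₁
    rw [e]
    exact hgr
  obtain ⟨r, hr, hgr'⟩ := l3_model M p ↥K ↥(A.comap ι) hp hpM hnu ϖ hϖ x hx W₁ hW₁ _ hy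
    g₁ hg₁B hgM hgM0
  refine ⟨ι (ϖ : ↥K), ?_, klBc ι (modularFunctionFieldFull (M * p)) r, ?_, ?_⟩
  · -- `ϖ` is a nonunit of `A`
    have h1 : (ϖ : ↥K) ∈ (A.comap ι).nonunits := by
      rw [ValuationSubring.mem_nonunits_iff_exists_mem_maximalIdeal]
      exact ⟨ϖ.2, by
        rw [IsLocalRing.mem_maximalIdeal, mem_nonunits_iff]
        exact hϖ.not_isUnit⟩
    rw [ValuationSubring.mem_nonunits_iff] at h1 ⊢
    have h2 : (A.comap ι).valuation (ϖ : ↥K) < 1 := h1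
    by_contra hcon
    rw [not_lt] at hcon
    -- `ι ϖ` is a unit of `A`, so `ϖ⁻¹ ∈ A ∩ K`
    have hϖ0 : (ϖ : ↥K) ≠ 0 := fun h0 => hϖ.ne_zero (Subtype.ext h0)
    have h3 : (ι (ϖ : ↥K))⁻¹ ∈ A := by
      rw [← A.valuation_le_one_iff, map_inv₀]
      exact inv_le_one_of_one_le₀ hcon
    have h4 : (ϖ : ↥K)⁻¹ ∈ A.comap ι := by
      rw [ValuationSubring.mem_comap, map_inv₀]
      exact h3
    have h5 : IsUnit ϖ := by
      refine IsUnit.of_mul_eq_one (⟨(ϖ : ↥K)⁻¹, h4⟩ : ↥(A.comap ι)) ?_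
      apply Subtype.ext
      show (ϖ : ↥K) * (ϖ : ↥K)⁻¹ = 1
      exact mul_inv_cancel₀ hϖ0
    exact hϖ.not_isUnit h5
  · have h1 := bc_mem_nmChart (M * p) A ι _ r hr
    rw [Fermat.Agent.H62.SS.klBc_ratK] at h1
    exact h1
  · rw [← hg₁, hgr', map_mul]
    congr 1
    rw [IsScalarTower.algebraMap_apply ↥(A.comap ι) ↥K (ModelField ↥K (M * p)),
      Fermat.Agent.H62.SS.klBc_algebraMap']
    rfl

/-- **[L3bar], chart `j`** : `B̄(j) ∩ 𝔪_∞ ∩ 𝔪_0 = 𝔪_A B̄(j)`. -/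
theorem nmChartL3 (M p : ℕ) [NeZero M] [NeZero p] (A : ValuationSubring Qb)
    (h : NmSetup M p A) (g : FLb (M * p)) (hg : g ∈ nmChart (M * p) A (nmJ (M * p)))
    (hoo : InMoo (M * p) A g) (hz : InMzero M p h.cop A g) :
    ∃ ε ∈ A.nonunits, ∃ t ∈ nmChart (M * p) A (nmJ (M * p)),
      g = algebraMap Qb (FLb (M * p)) ε * t := by
  have hpM : ¬ p ∣ M := fun hd => by
    have := Nat.Coprime.eq_one_of_dvd h.cop.symm hd
    exact h.prime.one_lt.ne' this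
  obtain ⟨hgO, hgro⟩ := hoo
  obtain ⟨hgV, hgr⟩ := hz
  rw [nmJ_eq_ratBar] at hg ⊢
  exact l3_bar M p h.prime hpM h.cop A h.liesOver (nmJq (M * p)) (Or.inl rfl) g hg hgO hgro
    hgV hgr

/-- **[L3bar], chart `j⁻¹`** : `B̄(j⁻¹) ∩ 𝔪_∞ ∩ 𝔪_0 = 𝔪_A B̄(j⁻¹)`. -/
theorem nmChartL3_inv (M p : ℕ) [NeZero M] [NeZero p] (A : ValuationSubring Qb)
    (h : NmSetup M p A) (g : FLb (M * p)) (hg : g ∈ nmChart (M * p) A (nmJ (M * p))⁻¹)
    (hoo : InMoo (M * p) A g) (hz : InMzero M p h.cop A g) :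
    ∃ ε ∈ A.nonunits, ∃ t ∈ nmChart (M * p) A (nmJ (M * p))⁻¹,
      g = algebraMap Qb (FLb (M * p)) ε * t := by
  have hpM : ¬ p ∣ M := fun hd => by
    have := Nat.Coprime.eq_one_of_dvd h.cop.symm hd
    exact h.prime.one_lt.ne' this
  obtain ⟨hgO, hgro⟩ := hoo
  obtain ⟨hgV, hgr⟩ := hz
  have e : (nmJ (M * p))⁻¹ =
      Fermat.Agent.H62.SS.ratBar (modularFunctionFieldFull (M * p)) (nmJq (M * p))⁻¹ := by
    rw [map_inv₀, nmJ_eq_ratBar]
  rw [e] at hg ⊢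
  exact l3_bar M p h.prime hpM h.cop A h.liesOver (nmJq (M * p))⁻¹ (Or.inr rfl) g hg hgO hgro
    hgV hgr

end Fermat.Agent.H32.ORD

end
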