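/-
helper32 — P-ORD (S33), leaf (C) [LIFT]: wiring of [L3bar] into helper94's assembly.

* `nmChartL3Stmt M p : H94.ORD.NmChartL3Statement M p`  (closed term, from `nmChartL3`);
* `nmChartLift_of_fin M p : H94.ORD.NmChartFinStatement M p → H37.ORD.NmChartLiftStatement M p`
  (so the only remaining input of [LIFT] is [FIN]).
-/
import Fermat.Agent.H32.ORD.NmChartL3
import Fermat.Agent.H94.ORD.NmChartLiftNm

namespace Fermat.Agent.H32.ORD

/-- **[L3bar]** as the exact statement consumed by `H94.ORD.nmChartLift_of_fin_l3`. -/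
theorem nmChartL3Stmt (M p : ℕ) [NeZero M] [NeZero p] :
    Fermat.Agent.H94.ORD.NmChartL3Statement M p :=
  fun A h g hg hoo hz => nmChartL3 M p A h g hg hoo hz

/-- **[LIFT]** from **[FIN]** alone. -/
theorem nmChartLift_of_fin (M p : ℕ) [NeZero M] [NeZero p]
    (hFin : Fermat.Agent.H94.ORD.NmChartFinStatement M p) :
    Fermat.Agent.H37.ORD.NmChartLiftStatement M p :=
  Fermat.Agent.H94.ORD.nmChartLift_of_fin_l3 M p hFin (nmChartL3Stmt M p)

end Fermat.Agent.H32.ORD
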