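/-
P-ORD (S33), block B1 (instance `nmG` of helper84), row 1155, [TOTI] half (helper32, second seat).

`nmTotIdeal_of_hartogs` : **[HART] ⟹ [TOTI]**.  Every centre lies on `C_∞` or on `C_0`:
if `f ∈ 𝔮_∞ ∩ B̄` and `f' ∈ 𝔮_0 ∩ B̄` were both outside `𝔐_P`, write `f = c₁ u₁` (`u₁ ∈ V_∞`),
`f' = c₂ u₂` (`u₂ ∈ V_0`) with `c₁, c₂ ∈ 𝔪_A ∖ {0}` (normalisation, soft fields); for `c` the one
of smaller valuation `g = f f' / c` lies in `V_∞ ∩ V_0` and has no pole at the places centred at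
the centre of `P`, so local Hartogs gives `s ∈ B̄ ∖ 𝔐_P` with `s g ∈ B̄`; then
`s f f' = c (s g) ∈ 𝔐_P`, contradicting the primality of `𝔐_P ∩ B̄`.

Inputs besides [HART]: the soft fields `const`, `norm` of `NodalRvHyp` (B1-GAUSS), the inclusion
`B̄ ⊆ V_∞ ∩ V_0` (B1-SPEC basics) and `deg = 1` for the places of `F`.
-/
import Fermat.Agent.H84.ORD.NodalSpecA

set_option autoImplicit false
set_option linter.unusedSectionVars false

noncomputable section

open AlgebraicCurve ModularCurve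

namespace Fermat.Agent.H32.ORD

open Fermat.Agent.H72.FF Fermat.Agent.H18.ORD Fermat.Agent.H66 Fermat.Agent.H27.ESD
  Fermat.Agent.H84.ORD

section Chart

variable {N : ℕ} (A : ValuationSubring Qb)

/-- The chart `B̄(y)` is contained in every valuation subring containing `A` and `y`. -/
theorem nmChart_le_valuationSubring (y : FLb N) (O : ValuationSubring (FLb N))
    (hA : ∀ c ∈ A, algebraMap Qb (FLb N) c ∈ O) (hy : y ∈ O) :
    nmChart N A y ≤ O.toSubring := by
  have hpoly : nmPoly N A y ≤ O.toSubring := by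
    unfold nmPoly
    rw [Subring.closure_le]
    rintro x (⟨c, hc, rfl⟩ | hx)
    · exact hA c hc
    · rw [Set.mem_singleton_iff] at hx
      rw [hx]
      exact hy
  intro f hf
  rw [mem_nmChart_iff] at hf
  obtain ⟨q, hq, hq0⟩ := hf
  have hint : IsIntegral O f := by
    refine ⟨q.map (Subring.inclusion hpoly), hq.map _, ?_⟩
    rw [Polynomial.eval₂_map]
    exact hq0
  obtain ⟨z, hz⟩ := (IsIntegrallyClosed.isIntegral_iff (R := O) (K := FLb N)).mp hint
  rw [← hz]
  exact z.2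

/-- `y ∈ B̄(y)`. -/
theorem self_mem_nmChart (y : FLb N) : y ∈ nmChart N A y := by
  rw [mem_nmChart_iff]
  have hy : y ∈ nmPoly N A y := Subring.subset_closure (Or.inr rfl)
  exact (nmPoly N A y).subtype.isIntegralElem_map (x := ⟨y, hy⟩)

variable {A}

/-- the chart coordinate of `P` has a value in `A` at `P` -/
theorem nmY_mem_nmComp [NeZero N] (P : Place Qb (FLb N)) (hdeg : P.deg = 1) :
    nmY A P ∈ nmComp A P hdeg := by
  classical
  unfold nmY
  split_ifs with h
  · exact h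
  · exact ((nmComp A P hdeg).mem_or_inv_mem (nmJ N)).resolve_left h

/-- every element of the chart of `P` has a value in `A` at `P` -/
theorem nmChart_le_nmComp' [NeZero N] (P : Place Qb (FLb N)) (hdeg : P.deg = 1) :
    nmChart N A (nmY A P) ≤ (nmComp A P hdeg).toSubring :=
  nmChart_le_valuationSubring A _ _ (fun _ hc => algebraMap_mem_nmComp A P hdeg hc)
    (nmY_mem_nmComp P hdeg)

/-- places with the same centre have the same chart -/
theorem nmY_eq_of_centre_eq [NeZero N] (P P' : Place Qb (FLb N)) (hdeg : P.deg = 1)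
    (hdeg' : P'.deg = 1) (hc : nmCentre A P' = nmCentre A P) : nmY A P' = nmY A P := by
  classical
  -- a nonunit of the composite ring whose inverse is integral: impossible
  have key : ∀ (P₁ P₂ : Place Qb (FLb N)) (h₁ : P₁.deg = 1) (h₂ : P₂.deg = 1),
      nmCentre A P₁ = nmCentre A P₂ → nmJ N ∈ nmInt A P₂ → nmJ N ∉ nmInt A P₁ → False := by
    intro P₁ P₂ h₁ h₂ hcen hj₂ hj₁
    have hY₁ : nmY A P₁ = (nmJ N)⁻¹ := by unfold nmY; rw [if_neg hj₁]
    have hji : (nmJ N)⁻¹ ∈ nmComp A P₁ h₁ :=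
      ((nmComp A P₁ h₁).mem_or_inv_mem (nmJ N)).resolve_left hj₁
    have hj0 : nmJ N ≠ 0 := by
      intro h0
      apply hj₁
      rw [h0]
      exact (nmComp A P₁ h₁).zero_mem
    have hnu : (nmJ N)⁻¹ ∈ (nmComp A P₁ h₁).nonunits := by
      rw [ValuationSubring.mem_nonunits_iff]
      by_contra hnot
      have h1 : (nmComp A P₁ h₁).valuation (nmJ N)⁻¹ ≤ 1 :=
        (ValuationSubring.valuation_le_one_iff _ _).2 hji
      have h2 : (nmComp A P₁ h₁).valuation (nmJ N)⁻¹ = 1 := le_antisymm h1 (not_lt.1 hnot)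
      apply hj₁
      rw [← mem_nmComp_iff_nmInt A P₁ h₁, ← ValuationSubring.valuation_le_one_iff]
      rw [map_inv₀, inv_eq_one] at h2
      rw [h2]
    have hmem₁ : (nmJ N)⁻¹ ∈ nmCentre A P₁ := by
      refine ⟨?_, (mem_nonunits_nmComp_iff A P₁ h₁).1 hnu⟩
      rw [hY₁]
      exact self_mem_nmChart A _
    rw [hcen] at hmem₁
    have hnu₂ : (nmJ N)⁻¹ ∈ (nmComp A P₂ h₂).nonunits :=
      (mem_nonunits_nmComp_iff A P₂ h₂).2 hmem₁.2
    rw [ValuationSubring.mem_nonunits_iff, map_inv₀] at hnu₂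
    have h3 : (nmComp A P₂ h₂).valuation (nmJ N) ≤ 1 :=
      (ValuationSubring.valuation_le_one_iff _ _).2 hj₂
    have h4 : (nmComp A P₂ h₂).valuation (nmJ N) ≠ 0 := by
      rw [Ne, Valuation.zero_iff]
      exact hj0
    have h5 : 1 ≤ ((nmComp A P₂ h₂).valuation (nmJ N))⁻¹ :=
      (one_le_inv₀ (zero_lt_iff.2 h4)).2 h3
    exact absurd hnu₂ (not_lt.2 h5)
  by_cases h : nmJ N ∈ nmInt A P
  · by_cases h' : nmJ N ∈ nmInt A P'
    · unfold nmY
      rw [if_pos h, if_pos h']
    · exact (key P' P hdeg' hdeg hc h h').elim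
  · by_cases h' : nmJ N ∈ nmInt A P'
    · exact (key P P' hdeg hdeg' hc.symm h' h).elim
    · unfold nmY
      rw [if_neg h, if_neg h']

end Chart

section Tot

variable {M p : ℕ} [NeZero M] [NeZero p]

/-- an element of `A` which is not in `𝔪_A ∖ {0}`... : a nonzero `c` outside `𝔪_A` has its
inverse in `A` -/
theorem inv_mem_of_not_mem_nonunits {A : ValuationSubring Qb} {c : Qb}
    (hc : c ∉ A.nonunits) : c⁻¹ ∈ A := by
  rw [ValuationSubring.mem_nonunits_iff, not_lt] at hc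
  rw [← ValuationSubring.valuation_le_one_iff, map_inv₀]
  have h0 : A.valuation c ≠ 0 := fun h => by
    rw [h] at hc
    exact absurd hc (not_le.2 zero_lt_one)
  exact (inv_le_one₀ (zero_lt_iff.2 h0)).2 hc

/-- **[HART] ⟹ [TOTI].** -/
theorem nmTotIdeal_of_hartogs (hH : NmHartogsStatement M p) (hSoft : NmSoftStatement M p)
    (hle : ∀ (A : ValuationSubring Qb) (h : NmSetup M p A) (P : Place Qb (FLb (M * p))),
      nmChart (M * p) A (nmY A P) ≤ gaussOBar (M * p) A ⊓ nmV0 M p h.cop A)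
    (hdeg : ∀ P : Place Qb (FLb (M * p)), P.deg = 1) :
    NmTotIdealStatement M p := by
  intro A h P
  obtain ⟨s1, s2, -, -, s5, s6, -, -, -, -, -⟩ := hSoft A h
  by_contra hcon
  rw [not_or] at hcon
  obtain ⟨hoo, hzero⟩ := hcon
  unfold NmIdealOo at hoo
  unfold NmIdealZero at hzero
  push Not at hoo hzero
  obtain ⟨f, hfB, hfV, hfred, hfM⟩ := hoo
  obtain ⟨f', hf'B, hf'V, hf'red, hf'M⟩ := hzero
  set O := nmComp A P (hdeg P) with hO
  have hBO := nmChart_le_nmComp' (A := A) P (hdeg P)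
  have hBV := hle A h P
  have hnuM : ∀ x : FLb (M * p), x ∈ O.nonunits ↔ x ∈ nmMax A P := fun x =>
    mem_nonunits_nmComp_iff A P (hdeg P)
  have hf0 : f ≠ 0 := by
    rintro rfl
    exact hfM ((hnuM 0).1 (by rw [ValuationSubring.mem_nonunits_iff, map_zero]; exact zero_lt_one))
  have hf'0 : f' ≠ 0 := by
    rintro rfl
    exact hf'M ((hnuM 0).1 (by rw [ValuationSubring.mem_nonunits_iff, map_zero]; exact zero_lt_one))
  -- normalisations
  obtain ⟨c₁, u₁, hc₁0, hu₁, hfu⟩ := s5 f hf0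
  obtain ⟨c₂, u₂, hc₂0, hu₂, hf'u⟩ := s6 f' hf'0
  have hc₁ : c₁ ∈ A.nonunits := by
    by_contra hn
    have hi : c₁⁻¹ ∈ A := inv_mem_of_not_mem_nonunits hn
    have hiV : algebraMap Qb (FLb (M * p)) c₁⁻¹ ∈ gaussOBar (M * p) A := (s1 _).2 hi
    have hu : u₁ = ⟨_, hiV⟩ * ⟨f, hfV⟩ := by
      apply Subtype.ext
      show (u₁ : FLb (M * p)) = algebraMap Qb (FLb (M * p)) c₁⁻¹ * f
      rw [hfu, ← mul_assoc, ← map_mul, inv_mul_cancel₀ hc₁0, map_one, one_mul]
    apply hu₁
    rw [hu, map_mul, hfred, mul_zero]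
  have hc₂ : c₂ ∈ A.nonunits := by
    by_contra hn
    have hi : c₂⁻¹ ∈ A := inv_mem_of_not_mem_nonunits hn
    have hiV : algebraMap Qb (FLb (M * p)) c₂⁻¹ ∈ nmV0 M p h.cop A := (s2 _).2 hi
    have hu : u₂ = ⟨_, hiV⟩ * ⟨f', hf'V⟩ := by
      apply Subtype.ext
      show (u₂ : FLb (M * p)) = algebraMap Qb (FLb (M * p)) c₂⁻¹ * f'
      rw [hf'u, ← mul_assoc, ← map_mul, inv_mul_cancel₀ hc₂0, map_one, one_mul]
    apply hu₂
    rw [hu, map_mul, hf'red, mul_zero]
  -- the function `g = f f' / c`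
  obtain ⟨c, g, hc, hc0, hgoo, hgzero, hg⟩ : ∃ (c : Qb) (g : FLb (M * p)), c ∈ A.nonunits ∧
      c ≠ 0 ∧ g ∈ gaussOBar (M * p) A ∧ g ∈ nmV0 M p h.cop A ∧
      f * f' = algebraMap Qb (FLb (M * p)) c * g := by
    have hfVz : f ∈ nmV0 M p h.cop A := (hBV hfB).2
    have hf'Voo : f' ∈ gaussOBar (M * p) A := (hBV hf'B).1
    rcases A.mem_or_inv_mem (c₂ / c₁) with hq | hq
    · refine ⟨c₁, (u₁ : FLb (M * p)) * f', hc₁, hc₁0, mul_mem u₁.2 hf'Voo, ?_, ?_⟩
      · have e : (u₁ : FLb (M * p)) * f' =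
            f * (algebraMap Qb (FLb (M * p)) (c₂ / c₁) * (u₂ : FLb (M * p))) := by
          rw [hf'u, hfu, map_div₀]
          have : algebraMap Qb (FLb (M * p)) c₁ ≠ 0 := by
            rw [Ne, map_eq_zero]; exact hc₁0
          field_simp
        rw [e]
        exact mul_mem hfVz (mul_mem ((s2 _).2 hq) u₂.2)
      · rw [hfu]; ring
    · rw [inv_div] at hq
      refine ⟨c₂, f * (u₂ : FLb (M * p)), hc₂, hc₂0, ?_, mul_mem hfVz u₂.2, ?_⟩
      · have e : f * (u₂ : FLb (M * p)) =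
            (algebraMap Qb (FLb (M * p)) (c₁ / c₂) * (u₁ : FLb (M * p))) * f' := by
          rw [hf'u, hfu, map_div₀]
          have : algebraMap Qb (FLb (M * p)) c₂ ≠ 0 := by
            rw [Ne, map_eq_zero]; exact hc₂0
          field_simp
        rw [e]
        exact mul_mem (mul_mem ((s1 _).2 hq) u₁.2) hf'Voo
      · rw [hf'u]; ring
  -- no pole at the places with the same centre
  have hpole : ∀ P' : Place Qb (FLb (M * p)), nmCentre A P' = nmCentre A P →
      g = 0 ∨ 0 ≤ P'.ord g := by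
    intro P' hcen
    have hY := nmY_eq_of_centre_eq (A := A) P P' (hdeg P) (hdeg P') hcen
    have hB' := nmChart_le_nmComp' (A := A) P' (hdeg P')
    rw [hY] at hB'
    have hval : ∀ x ∈ nmChart (M * p) A (nmY A P), x ∈ P'.toValuationSubring := by
      intro x hx
      obtain ⟨d, -, hd⟩ := hB' hx
      exact (ValuationSubring.valuation_le_one_iff _ _).1 (nmv_le_one_of_hasValue P' hd)
    have hgeq : g = algebraMap Qb (FLb (M * p)) c⁻¹ * (f * f') := by
      rw [hg, ← mul_assoc, ← map_mul, inv_mul_cancel₀ hc0, map_one, one_mul]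
    have hgmem : g ∈ P'.toValuationSubring := by
      rw [hgeq]
      exact mul_mem (P'.algebraMap_mem' _) (mul_mem (hval f hfB) (hval f' hf'B))
    exact (Fermat.Agent.H23.mem_iff_ord P').1 hgmem
  obtain ⟨s, hsB, hsM, hsg⟩ := hH A h P g (fun _ => hgoo) (fun _ => hgzero) hpole
  -- valuations in the composite ring
  have hunit : ∀ x ∈ nmChart (M * p) A (nmY A P), x ∉ nmMax A P → O.valuation x = 1 := by
    intro x hx hxM
    have h1 : O.valuation x ≤ 1 := (ValuationSubring.valuation_le_one_iff _ _).2 (hBO hx)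
    have h2 : ¬ O.valuation x < 1 := fun h' =>
      hxM ((hnuM x).1 ((ValuationSubring.mem_nonunits_iff _).2 h'))
    exact le_antisymm h1 (not_lt.1 h2)
  have hL : O.valuation (s * (f * f')) = 1 := by
    rw [map_mul, map_mul, hunit s hsB hsM, hunit f hfB hfM, hunit f' hf'B hf'M, mul_one, mul_one]
  have hR : O.valuation (s * (f * f')) < 1 := by
    have e : s * (f * f') = algebraMap Qb (FLb (M * p)) c * (s * g) := by
      rw [hg]; ring
    rw [e, map_mul]
    have hcM : algebraMap Qb (FLb (M * p)) c ∈ O.nonunits :=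
      (hnuM _).2 ⟨c, hc, nm_hasValue_const P c⟩
    have h1 : O.valuation (algebraMap Qb (FLb (M * p)) c) < 1 :=
      (ValuationSubring.mem_nonunits_iff _).1 hcM
    have h2 : O.valuation (s * g) ≤ 1 := (ValuationSubring.valuation_le_one_iff _ _).2 (hBO hsg)
    calc O.valuation (algebraMap Qb (FLb (M * p)) c) * O.valuation (s * g)
        ≤ O.valuation (algebraMap Qb (FLb (M * p)) c) * 1 := by gcongr
      _ = O.valuation (algebraMap Qb (FLb (M * p)) c) := mul_one _
      _ < 1 := h1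
  rw [hL] at hR
  exact lt_irrefl _ hR

end Tot

end Fermat.Agent.H32.ORD
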