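/-
P-ORD (S33), block B1 (instance `nmG` of helper84), row 1155, [TOTI] half (helper32): WIRING.

`nmTotIdeal_of_hart : NmHartogsStatement M p → NmTotIdealStatement M p`  and
`nmTot_of_hart : [HART] → [DVR] → NmTotStatement M p`, with all side inputs discharged by the landed soft facts (`Fermat.Agent.H20.ORD.nmSoft`,
`Fermat.Agent.H84.ORD.nmBase_of_soft`, `Fermat.Agent.H70.SS.ss_deg_eq_one_bar`).
-/
import Fermat.Agent.H32.ORD.NmTotIdeal
import Fermat.Agent.H84.ORD.NodalSpecFinal
import Fermat.Agent.H20.ORD.NmSoft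

set_option autoImplicit false
set_option linter.unusedSectionVars false

noncomputable section

open AlgebraicCurve ModularCurve

namespace Fermat.Agent.H32.ORD

open Fermat.Agent.H72.FF Fermat.Agent.H18.ORD Fermat.Agent.H66 Fermat.Agent.H27.ESD
  Fermat.Agent.H84.ORD

/-- **[HART] ⟹ [TOTI]**, all side inputs discharged. -/
theorem nmTotIdeal_of_hart (M p : ℕ) [NeZero M] [NeZero p] (hH : NmHartogsStatement M p) :
    NmTotIdealStatement M p :=
  nmTotIdeal_of_hartogs hH (Fermat.Agent.H20.ORD.nmSoft M p)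
    (fun _ h P _ hf =>
      ⟨(nmBase_of_soft (Fermat.Agent.H20.ORD.nmSoft M p) h).chart_le_oo P hf,
        (nmBase_of_soft (Fermat.Agent.H20.ORD.nmSoft M p) h).chart_le_zero P hf⟩)
    (fun P => Fermat.Agent.H70.SS.ss_deg_eq_one_bar (M * p) P)

/-- **[TOT]** from [HART] + [DVR]. -/
theorem nmTot_of_hart (M p : ℕ) [NeZero M] [NeZero p] (hH : NmHartogsStatement M p)
    (hDo : NmDvrOoStatement M p) (hDz : NmDvrZeroStatement M p) : NmTotStatement M p :=
  nmTot (nmTotIdeal_of_hart M p hH) hDo hDz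

end Fermat.Agent.H32.ORD
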