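/-
P-ORD (S33), block (G-B), row 1138 ORD-GB-C1 (helper32): `taylorRedC : TaylorRedC`.

Functional Taylor expansion on the residue disc of a smooth point of one component of a nodal
reduction: `y = ∑_{n<M} c_n t^n + t^M y_M` in `V`, `c_n ∈ R`, `y_M` unramified without poles on
the disc (iterated divided differences at the centre).  The value form and the reduction form
follow.  Port of `Fermat.Agent.H94.FF.taylorRed` (P-FF, FF-G3) to helper18's `CompHyp`.
-/
import Fermat.Agent.H32.ORD.CompVal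

set_option autoImplicit false
set_option synthInstance.maxHeartbeats 400000
set_option maxHeartbeats 1600000
set_option linter.style.haveILetI false
set_option linter.unusedSectionVars false

noncomputable section

open AlgebraicCurve ModularCurve Fermat.Agent.H18 Fermat.Agent.H27.ESD

namespace Fermat.Agent.H32.ORD

open Fermat.Agent.H10.FF Fermat.Agent.H72.FF Fermat.Agent.H18.ORD Fermat.Agent.H92.ORD
  Fermat.Agent.H94.FF Fermat.Agent.H94.ORD

variable {N p : ℕ} {A : ValuationSubring Qb} {Fk : Type} [Field Fk] [Algebra (kRes A) Fk]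
  {X : Type} {V : Subring (FLb N)} {red : V →+* Fk} {r : Place Qb (FLb N) → X}
  {pt : Place (kRes A) Fk → X} {smooth : Place (kRes A) Fk → Prop}

/-- **Functional Taylor expansion** on the disc of a smooth point of one component. -/
theorem taylor_functionalC (hS : CompSetup N p A V red r pt smooth) (Q : Place (kRes A) Fk)
    (hQ : smooth Q) (P : Place Qb (FLb N)) (t : V) (hc : IsUnrCoordC A N V red r pt Q P t)
    (y : V) (hy : IsUnrFn A N (y : FLb N))
    (hnp : ∀ P1, r P1 = pt Q → 0 ≤ P1.ord (y : FLb N)) (M : ℕ) :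
    ∃ (c : Fin M → A) (yM : V), (∀ n, ((c n : A) : Qb) ∈ unrInt A) ∧
      IsUnrFn A N (yM : FLb N) ∧ (∀ P1, r P1 = pt Q → 0 ≤ P1.ord (yM : FLb N)) ∧
      y = ∑ n : Fin M, constC hS (c n) * t ^ (n : ℕ) + t ^ M * yM := by
  have H := hS.comp
  have hdeg := hS.degL
  induction M with
  | zero =>
    refine ⟨Fin.elim0, y, fun n => n.elim0, hy, hnp, ?_⟩
    simp
  | succ M ih =>
    obtain ⟨c, yM, hcR, hyMU, hyMnp, hyM⟩ := ih
    obtain ⟨v, hv'⟩ := exists_hasVal (hdeg P) (hyMnp P hc.sp)
    have hv : HasValue P (yM : FLb N) v := hv'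
    have hvR : v ∈ unrInt A :=
      isUnr_value_mem_unrIntC H yM Q hQ P hc.sp hyMnp hc.unrP hyMU _ hv
    let cM : A := ⟨v, hvR.1⟩
    refine ⟨Fin.snoc c cM, divDiffC H hS.inv t (IsUnrCoordC.red_ne_zero hc) yM cM, ?_,
      isUnrFn_divDiffC H hS.inv _ _ _ _ hc.unrT hyMU hvR,
      fun P1 h1 => divDiffC_nopole H hS.inv hQ hc yM cM hyMnp hdeg hv P1 h1, ?_⟩
    · intro n
      refine Fin.lastCases ?_ (fun n => ?_) n
      · rw [Fin.snoc_last]
        exact hvR
      · rw [Fin.snoc_castSucc]
        exact hcR n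
    · rw [Fin.sum_univ_castSucc]
      simp only [Fin.snoc_castSucc, Fin.snoc_last, Fin.val_castSucc, Fin.val_last]
      rw [pow_succ, mul_assoc, divDiffC_mul_self, constC_eq_compConst hS cM]
      conv_lhs => rw [hyM]
      ring

theorem ord_pow_natC {K F : Type*} [Field K] [Field F] [Algebra K F] (v : Place K F) (f : F)
    (n : ℕ) : v.ord (f ^ n) = n * v.ord f := by
  have := v.ord_zpow f (n : ℤ)
  rwa [zpow_natCast] at this

/-- **[C-TAYLOR]** (row 1138). -/
theorem taylorRedC : TaylorRedC := by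
  intro N p A Fk _ _ X V red r pt smooth hS Q hQ P t hc y hy hnp M
  have H := hS.comp
  have hdeg := hS.degL
  obtain ⟨c, yM, hcR, hyMU, hyMnp, hyM⟩ := taylor_functionalC hS Q hQ P t hc y hy hnp M
  refine ⟨c, hcR, ?_, ?_⟩
  · intro P1 hP1 a b ha hb
    obtain ⟨e, he⟩ := exists_hasVal (hdeg P1) (hyMnp P1 hP1)
    obtain ⟨heA, -⟩ := hasValue_redC H yM Q hQ hyMnp P1 hP1 e he
    refine ⟨e, heA, ?_⟩
    have h1 : HasVal P1 ((y : V) : FLb N)
        (∑ n : Fin M, ((c n : A) : Qb) * a ^ (n : ℕ) + a ^ M * e) := by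
      have h2 : ((y : V) : FLb N) =
          ∑ n : Fin M, algebraMap Qb (FLb N) ((c n : A) : Qb) * (t : FLb N) ^ (n : ℕ) +
            (t : FLb N) ^ M * (yM : FLb N) := by
        conv_lhs => rw [hyM]
        rw [Subring.coe_add, AddSubmonoidClass.coe_finsetSum]
        rfl
      rw [h2]
      refine HasVal.add (hasVal_sum _ _ _ fun n _ => ?_) ?_
      · exact HasVal.const_mul _ (HasVal.pow ha _)
      · exact HasVal.mul (HasVal.pow ha _) he
    have h3 : b = ∑ n : Fin M, ((c n : A) : Qb) * a ^ (n : ℕ) + a ^ M * e :=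
      HasVal.unique hb h1
    rw [h3]
    ring
  · have h2 : red y - ∑ n : Fin M,
        algebraMap (kRes A) Fk (IsLocalRing.residue A (c n)) *
          (red t) ^ (n : ℕ) = (red t) ^ M * red yM := by
      conv_lhs => rw [hyM]
      rw [map_add, map_sum, map_mul, map_pow]
      simp only [map_mul, map_pow, red_constC]
      ring
    rw [h2]
    by_cases h0 : red yM = 0
    · left
      rw [h0, mul_zero]
    · right
      have ht0 : red t ≠ 0 := IsUnrCoordC.red_ne_zero hc
      rw [Q.ord_mul (pow_ne_zero _ ht0) h0, ord_pow_natC, hc.simple]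
      have h5 : 0 ≤ Q.ord (red yM) := H.ord_red_nonneg yM h0 Q hQ hyMnp
      omega

end Fermat.Agent.H32.ORD
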